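import Mathlib.Analysis.SpecialFunctions.Complex.CircleAddChar
import Fermat.Agent.ResidualThree.WeightTwo.WeightOne

/-!
# Operators on weight-one functions of character `χ₋₃`

Sums of slashes by integral matrices permuted by `Γ₀`: the extraction of the coefficients at the
multiples of `d` and the multiplication of the coefficients by a periodic sequence.
-/

noncomputable section

open CongruenceSubgroup UpperHalfPlane ModularFormClass
open scoped ModularForm MatrixGroups Manifold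

namespace Fermat.Agent.WeightOneLift

open Fermat.Agent.ResidualThree

variable {N : ℕ} {f : ℍ → ℂ}

/-- A weight one form of level `N` is one of level any multiple of `N`. -/
theorem isW1_mono {M : ℕ} (hNM : N ∣ M) (hf : IsW1 N f) : IsW1 M f where
  mdiff := hf.mdiff
  slash γ hγ := hf.slash γ (by
    rw [Gamma0_mem, ZMod.intCast_zmod_eq_zero_iff_dvd] at hγ ⊢
    exact (Int.natCast_dvd_natCast.2 hNM).trans hγ)
  zero := hf.zero

/-- A weighted sum of slashes. -/
def opSum {m : ℕ} [NeZero m] (A : ZMod m → Matrix (Fin 2) (Fin 2) ℤ) (w : ZMod m → ℂ)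
    (f : ℍ → ℂ) : ℍ → ℂ :=
  ∑ i, w i • (f ∣[(1 : ℤ)] intGL (A i))

/-- A sum whose terms are permuted by `Γ₀(M)`. -/
theorem isW1_opSum {m M : ℕ} [NeZero m] (A : ZMod m → Matrix (Fin 2) (Fin 2) ℤ) (w : ZMod m → ℂ)
    (hA : ∀ i, 0 < (A i).det) (hf : IsW1 N f)
    (hstep : ∀ γ : SL(2, ℤ), γ ∈ Gamma0 M → ∃ σ : ZMod m ≃ ZMod m, ∀ i, w (σ i) = w i ∧
      ∃ M' : Matrix (Fin 2) (Fin 2) ℤ, M'.det = 1 ∧ (N : ℤ) ∣ M' 1 0 ∧ (3 : ℤ) ∣ M' 1 1 - γ 1 1 ∧
        A i * (γ : Matrix (Fin 2) (Fin 2) ℤ) = M' * A (σ i)) :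
    IsW1 M (opSum A w f) where
  mdiff := by
    refine Finset.sum_induction _ (fun F : ℍ → ℂ => MDiff F) (fun a b ha hb => ha.add hb)
      mdifferentiable_const fun i _ => (hf.mdiff.slash 1 _).const_smul _
  slash γ hγ := by
    obtain ⟨σ, hσ⟩ := hstep γ hγ
    rw [ModularForm.SL_slash, opSum, SlashAction.sum_slash, Finset.smul_sum]
    refine Fintype.sum_equiv σ _ _ fun i => ?_
    obtain ⟨hw, M', hd, hN, h3, he⟩ := hσ i
    have hγd : 0 < (γ : Matrix (Fin 2) (Fin 2) ℤ).det := by rw [γ.2]; exact one_pos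
    have h1 := hf.slash ⟨M', hd⟩ (by rw [Gamma0_mem, ZMod.intCast_zmod_eq_zero_iff_dvd]; exact hN)
    rw [ModularForm.SL_slash, ← intGL_coe_SL] at h1
    have hd' : M'.det ≠ 0 := by rw [hd]; exact one_ne_zero
    rw [← intGL_coe_SL, smul_slash_intGL hγd, ← SlashAction.slash_mul,
      ← intGL_mul (hA i).ne' hγd.ne', he, intGL_mul hd' (hA _).ne', SlashAction.slash_mul, h1,
      smul_slash_intGL (hA _), smul_comm, chiC_congr h3, hw]
  zero c hc := by
    refine Finset.sum_induction _ (fun F => OnePoint.IsZeroAt c F (1 : ℤ))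
      (fun a b ha hb => ha.add hb) (fun g _ => by
        rw [SlashAction.zero_slash]; exact Filter.zero_zeroAtFilter _) fun i _ g hg => ?_
    rw [ModularForm.smul_slash]
    exact (isZeroAt_slash_intGL hf.zero _ hc g hg).smul _

/-- The congruence and the determinant of an element of `Γ₀(M)`. -/
theorem gamma0_entries {M : ℕ} {γ : SL(2, ℤ)} (hγ : γ ∈ Gamma0 M) :
    (M : ℤ) ∣ γ 1 0 ∧ γ 0 0 * γ 1 1 - γ 0 1 * γ 1 0 = 1 :=
  ⟨(ZMod.intCast_zmod_eq_zero_iff_dvd _ _).1 (Gamma0_mem.1 hγ),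
    (Matrix.det_fin_two (γ : Matrix (Fin 2) (Fin 2) ℤ)).symm.trans γ.2⟩

/-- **The coefficients at the multiples of `d ∣ N`.** -/
theorem exists_w1_dilate {d : ℕ} [NeZero d] (hdN : d ∣ N) (h3 : 3 ∣ N) (hf : IsW1 N f) :
    ∃ g : ℍ → ℂ, IsW1 N g ∧ ∀ n, qCoeff g n = qCoeff f (d * n) := by
  refine ⟨ModularForm.heckeU 1 d f, ?_, fun n => ?_⟩
  swap
  · have hper : Function.Periodic (f ∘ ofComplex) 1 := by
      simpa [Complex.ofReal_one] using hf.goodFn.periodic
    rw [UpperHalfPlane.qCoeff_heckeU hper hf.goodFn.holo hf.goodFn.bdd 1 (NeZero.ne d) n,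
      ModularForm.coeffHeckeU_apply, mul_comm]
  let A : ZMod d → Matrix (Fin 2) (Fin 2) ℤ := fun j => !![1, (j.val : ℤ); 0, (d : ℤ)]
  have hA : ∀ j, (A j).det = d := fun j => by simp [A, Matrix.det_fin_two_of]
  have hApos : ∀ j, 0 < (A j).det := fun j => by
    rw [hA]; exact_mod_cast Nat.pos_of_ne_zero (NeZero.ne d)
  have e : ModularForm.heckeU 1 d f = opSum A (fun _ => 1) f := by
    rw [opSum, ModularForm.heckeU_def, sum_range_eq_sum_zmod]
    refine Finset.sum_congr rfl fun j _ => ?_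
    rw [one_smul]
    congr 1
    refine Units.ext (Matrix.ext fun x y => ?_)
    rw [intGL_apply (hApos _).ne', ModularForm.val_heckeMatrix (NeZero.ne d)]
    fin_cases x <;> fin_cases y <;> simp [A, -ZMod.natCast_val]
  rw [e]
  refine isW1_opSum A _ hApos hf fun γ hγ => ?_
  obtain ⟨hc, hdet⟩ := gamma0_entries hγ
  have hcd : ((γ 1 0 : ℤ) : ZMod d) = 0 :=
    (ZMod.intCast_zmod_eq_zero_iff_dvd _ _).2 ((Int.natCast_dvd_natCast.2 hdN).trans hc)
  have hae : ((γ 0 0 : ℤ) : ZMod d) * ((γ 1 1 : ℤ) : ZMod d) = 1 := by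
    have := congrArg (Int.cast : ℤ → ZMod d) hdet
    push_cast at this
    rwa [hcd, mul_zero, sub_zero] at this
  let σ : ZMod d ≃ ZMod d :=
    { toFun := fun j => (γ 0 1 : ZMod d) * (γ 1 1) + j * (γ 1 1) ^ 2
      invFun := fun j => (j - (γ 0 1 : ZMod d) * (γ 1 1)) * (γ 0 0) ^ 2
      left_inv := fun j => by
        linear_combination (j * ((γ 0 0 : ZMod d) * (γ 1 1) + 1)) * hae
      right_inv := fun j => by
        linear_combination ((j - (γ 0 1 : ZMod d) * (γ 1 1)) *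
          ((γ 0 0 : ZMod d) * (γ 1 1) + 1)) * hae }
  refine ⟨σ, fun j => ⟨rfl, ?_⟩⟩
  set j₀ : ℤ := (j.val : ℤ) with hj₀
  set j₁ : ℤ := ((σ j).val : ℤ) with hj₁
  obtain ⟨s, hs⟩ : (d : ℤ) ∣ γ 0 1 + j₀ * γ 1 1 - (γ 0 0 + j₀ * γ 1 0) * j₁ := by
    rw [← ZMod.intCast_zmod_eq_zero_iff_dvd, hj₀, hj₁]
    push_cast [ZMod.natCast_zmod_val]
    show _ - _ * ((γ 0 1 : ZMod d) * (γ 1 1) + j * (γ 1 1) ^ 2) = 0
    rw [hcd]
    linear_combination -((γ 0 1 : ZMod d) + j * (γ 1 1)) * hae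
  refine ⟨!![γ 0 0 + j₀ * γ 1 0, s; (d : ℤ) * γ 1 0, γ 1 1 - γ 1 0 * j₁], ?_, ?_, ?_, ?_⟩
  · rw [Matrix.det_fin_two_of]
    linear_combination hdet + γ 1 0 * hs
  · exact dvd_mul_of_dvd_right hc _
  · exact ⟨-(γ 1 0 / 3 * j₁), by
      obtain ⟨t, ht⟩ := (Int.natCast_dvd_natCast.2 h3).trans hc
      simp [ht, mul_assoc]⟩
  · ext x y
    fin_cases x <;> fin_cases y <;>
      simp [A, -ZMod.natCast_val, Matrix.mul_apply, Fin.sum_univ_two, ← hj₀, ← hj₁]
    · linear_combination hs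
    · ring

/-- **The coefficients times a periodic sequence** invariant under the squares of the units. -/
theorem exists_w1_periodic {m : ℕ} [NeZero m] (h3 : 3 ∣ N) (hf : IsW1 N f) (c : ZMod m → ℂ)
    (hc : ∀ (u : (ZMod m)ˣ) (r : ZMod m), c (r * (u : ZMod m) ^ 2) = c r) :
    ∃ g : ℍ → ℂ, IsW1 (N * m ^ 2) g ∧ ∀ n, qCoeff g n = c n * qCoeff f n := by
  classical
  have hm0 : (m : ℂ) ≠ 0 := Nat.cast_ne_zero.2 (NeZero.ne m)
  set ψ : AddChar (ZMod m) ℂ := ZMod.stdAddChar with hψ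
  let ch : ZMod m → ℂ := fun j => ∑ r, c r * ψ (-(j * r))
  have hch : ∀ n : ZMod m, ∑ j, ch j * ψ (j * n) = m * c n := by
    intro n
    simp only [ch, Finset.sum_mul]
    rw [Finset.sum_comm, Finset.sum_eq_single n]
    · simp only [mul_assoc, ← AddChar.map_add_eq_mul, neg_add_cancel, AddChar.map_zero_eq_one,
        mul_one, Finset.sum_const, Finset.card_univ, ZMod.card, nsmul_eq_mul]
    · intro r _ hr
      have := AddChar.sum_mulShift (n - r) (ZMod.isPrimitive_stdAddChar m)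
      rw [if_neg (sub_ne_zero.2 (Ne.symm hr))] at this
      rw [← mul_zero (c r), ← Nat.cast_zero, ← this, Finset.mul_sum]
      refine Finset.sum_congr rfl fun j _ => ?_
      rw [mul_assoc, ← AddChar.map_add_eq_mul]
      congr 2
      ring
    · exact fun h => absurd (Finset.mem_univ n) h
  have hchu : ∀ (u : (ZMod m)ˣ) j, ch (j * (u : ZMod m) ^ 2) = ch j := fun u j => by
    refine Fintype.sum_equiv (Units.mulRight (u ^ 2)) _ _ fun r => ?_
    simp only [Units.mulRight_apply, Units.val_pow_eq_pow_val]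
    rw [hc]
    congr 2
    ring
  let A : ZMod m → Matrix (Fin 2) (Fin 2) ℤ := fun j => !![(m : ℤ), (j.val : ℤ); 0, (m : ℤ)]
  have hA : ∀ j, (A j).det = (m : ℤ) * m := fun j => by simp [A, Matrix.det_fin_two_of]
  have hApos : ∀ j, 0 < (A j).det := fun j => by
    rw [hA]; exact_mod_cast Nat.mul_pos (NeZero.pos m) (NeZero.pos m)
  refine ⟨opSum A ch f, ?_, fun n => ?_⟩
  · refine isW1_opSum A ch hApos hf fun γ hγ => ?_
    obtain ⟨hc', hdet⟩ := gamma0_entries hγ
    obtain ⟨t, ht⟩ : ((N : ℤ) * (m : ℤ) ^ 2) ∣ γ 1 0 := by exact_mod_cast hc'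
    have hae : ((γ 0 0 : ℤ) : ZMod m) * ((γ 1 1 : ℤ) : ZMod m) = 1 := by
      have := congrArg (Int.cast : ℤ → ZMod m) hdet
      rw [ht] at this
      push_cast at this
      rw [ZMod.natCast_self] at this
      linear_combination this
    let u : (ZMod m)ˣ := ⟨(γ 1 1 : ZMod m), (γ 0 0 : ZMod m), (mul_comm _ _).trans hae, hae⟩
    refine ⟨Units.mulRight (u ^ 2), fun j => ?_⟩
    have hσ : Units.mulRight (u ^ 2) j = j * (γ 1 1 : ZMod m) ^ 2 := by
      simp [u, Units.val_pow_eq_pow_val]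
    rw [hσ]
    refine ⟨hchu u j, ?_⟩
    set j₀ : ℤ := (j.val : ℤ) with hj₀
    set j₁ : ℤ := ((j * (γ 1 1 : ZMod m) ^ 2).val : ℤ) with hj₁
    obtain ⟨s, hs⟩ : (m : ℤ) ∣ j₀ * γ 1 1 - (γ 0 0 + j₀ * (N * m * t)) * j₁ := by
      rw [← ZMod.intCast_zmod_eq_zero_iff_dvd, hj₀, hj₁]
      push_cast [ZMod.natCast_zmod_val, ZMod.natCast_self]
      linear_combination -(j * (γ 1 1 : ZMod m)) * hae
    refine ⟨!![γ 0 0 + j₀ * (N * m * t), γ 0 1 + s; γ 1 0, γ 1 1 - j₁ * (N * m * t)],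
      ?_, ?_, ?_, ?_⟩
    · rw [Matrix.det_fin_two_of, ht]
      rw [ht] at hdet
      linear_combination hdet + ((N : ℤ) * m * t) * hs
    · rw [ht]; exact (dvd_mul_right _ _).mul_right t
    · obtain ⟨k, hk⟩ := Int.natCast_dvd_natCast.2 h3
      exact ⟨-(j₁ * (k * m * t)), by
        simp only [Matrix.cons_val', Matrix.cons_val_one, Matrix.of_apply,
          Matrix.empty_val', Matrix.cons_val_fin_one]
        rw [hk]; push_cast; ring⟩
    · ext x y
      fin_cases x <;> fin_cases y <;>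
        simp [A, -ZMod.natCast_val, Matrix.mul_apply, Fin.sum_univ_two, ← hj₀, ← hj₁, ht]
      · ring
      · linear_combination hs
      · ring
      · ring
  · have hpt : ∀ (j : ZMod m) (τ : ℍ), (f ∣[(1 : ℤ)] intGL (A j)) τ =
        (m : ℂ)⁻¹ * f (((j.val : ℝ) / m) +ᵥ τ) := by
      intro j τ
      have hdet := det_intGL (hApos j)
      rw [ModularForm.slash_apply, UpperHalfPlane.σ, if_pos hdet]
      have hden : UpperHalfPlane.denom (intGL (A j)) τ = (m : ℂ) := by
        simp only [UpperHalfPlane.denom, intGL_apply (hApos j).ne']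
        simp [A]
      rw [hden]
      have hsm : (intGL (A j) • τ : ℍ) = ((j.val : ℝ) / m) +ᵥ τ := by
        refine UpperHalfPlane.ext ?_
        rw [UpperHalfPlane.coe_smul_of_det_pos hdet, hden, UpperHalfPlane.coe_vadd]
        simp only [UpperHalfPlane.num, intGL_apply (hApos j).ne']
        simp [A, -ZMod.natCast_val]
        field_simp
        ring
      rw [hsm]
      simp [mul_comm]
    have hq : ∀ j : ZMod m, Function.Periodic.qParam 1 ((((j.val : ℝ) / m : ℝ)) : ℂ) = ψ j := by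
      intro j
      have h := ZMod.stdAddChar_coe (N := m) (j.val : ℤ)
      rw [Int.cast_natCast, ZMod.natCast_zmod_val] at h
      rw [hψ, h, Function.Periodic.qParam]
      congr 1
      push_cast
      ring
    let P : PowerSeries ℂ := PowerSeries.mk fun k => c k * qCoeff f k
    have hs : ∀ τ : ℍ, HasSum (fun k => P.coeff k * Function.Periodic.qParam 1 τ ^ k)
        (opSum A ch f τ) := by
      intro τ
      have h := hasSum_sum (s := Finset.univ) fun (j : ZMod m) _ =>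
        ((hf.goodFn.hasSum one_pos (((j.val : ℝ) / m) +ᵥ τ)).mul_left (ch j * (m : ℂ)⁻¹))
      have e : ∀ (j : ZMod m) (k : ℕ), Function.Periodic.qParam 1
          ((((j.val : ℝ) / m) +ᵥ τ : ℍ) : ℂ) ^ k =
            ψ (j * (k : ZMod m)) * Function.Periodic.qParam 1 τ ^ k := by
        intro j k
        rw [mul_comm j, ← nsmul_eq_mul, AddChar.map_nsmul_eq_pow, ← hq, ← mul_pow,
          UpperHalfPlane.coe_vadd, Function.Periodic.qParam, Function.Periodic.qParam,
          Function.Periodic.qParam, ← Complex.exp_add]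
        congr 2
        push_cast
        ring
      simp only [e] at h
      rw [show opSum A ch f τ =
          ∑ j, ch j * (m : ℂ)⁻¹ * f (((j.val : ℝ) / m) +ᵥ τ) by
        simp only [opSum, Finset.sum_apply, Pi.smul_apply, smul_eq_mul, hpt, mul_assoc]]
      refine h.congr_fun fun k => ?_
      simp only [P, PowerSeries.coeff_mk, qCoeff]
      calc _ = (m : ℂ)⁻¹ * (∑ j, ch j * ψ (j * (k : ZMod m))) *
            ((qExpansion 1 f).coeff k * Function.Periodic.qParam 1 τ ^ k) := by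
            rw [hch]; field_simp
        _ = _ := by
            rw [Finset.mul_sum, Finset.sum_mul]
            exact Finset.sum_congr rfl fun j _ => by ring
    rw [qCoeff, Eis.qExpansion_eq_of_hasSum one_pos P hs, PowerSeries.coeff_mk]

/-- A weight-one function as a cusp form on `Γ₁`. -/
def toCusp [NeZero N] (h3 : 3 ∣ N) (hf : IsW1 N f) : CuspForm (Gamma1 N) 1 where
  toFun := f
  slash_action_eq' := by
    rintro _ ⟨γ, hγ, rfl⟩
    obtain ⟨-, hd, hc⟩ := (Gamma1_mem N γ).mp hγ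
    have h1 : (3 : ℤ) ∣ γ 1 1 - 1 := (Int.natCast_dvd_natCast.mpr h3).trans
      ((ZMod.intCast_zmod_eq_zero_iff_dvd _ N).mp (by push_cast; rw [hd, sub_self]))
    show f ∣[(1 : ℤ)] γ = f
    rw [hf.slash γ (Gamma0_mem.mpr hc), chiC_congr h1, chiC_one, one_smul]
  holo' := hf.mdiff
  zero_at_cusps' := fun {c} hc => hf.zero c
    (by rwa [Subgroup.IsArithmetic.isCusp_iff_isCusp_SL2Z] at hc)

@[simp] theorem coe_toCusp [NeZero N] (h3 : 3 ∣ N) (hf : IsW1 N f) : ⇑(toCusp h3 hf) = f := rfl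

end Fermat.Agent.WeightOneLift
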