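import Fermat.Prelude.Def_LanglandsTunnell_WeightOneRealizationCarriers
import Fermat.Agent.Depletion.RecMul
import Fermat.Agent.Gal.Basic
import Fermat.Agent.ResidualThree.WeightTwo.Eigen
import Fermat.Agent.S48
import Fermat.Agent.WeightOneLift.Defs
import Fermat.Agent.WeightOneLift.WeightOne.Ops

/-!
# The realised eigensystem of weight one with the lifted traces

From a weight-one form with the lifted traces at the split primes: a normalised eigenform, its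
representation, and the depleted form, whose coefficients are the lifted traces.
-/

noncomputable section

open CongruenceSubgroup UpperHalfPlane ModularFormClass EisensteinWeightOne
open scoped MatrixGroups ModularForm

namespace Fermat.Agent.WeightOneLift

open Fermat.Agent.ResidualThree

local notation "Qbar" => AlgebraicClosure ℚ
local notation "Γℚ" => (AlgebraicClosure ℚ ≃ₐ[ℚ] AlgebraicClosure ℚ)

/-- The step identifying the representation of the eigenform with the lift: a finite-level complex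
representation with determinant `χ₋₃` and, on the split Frobenius elements landing in `Q₈`, the
quaternionic traces of `ρ` has the character of `Ψ ∘ ρ` through some embedding of `ℤ[√-2]`. -/
def TraceStep (ρ : Γℚ →* GL (Fin 2) (ZMod 3))
    (Ψ : GL (Fin 2) (ZMod 3) →* GL (Fin 2) (ℤ√(-2))) : Prop :=
  ∀ (R : Γℚ →* GL (Fin 2) ℂ), GaloisFactorsThroughFiniteLevel R → ∀ S : Finset ℕ,
    (∀ p : ℕ, p.Prime → p ∉ S → ∀ A : ValuationSubring Qbar, A.LiesOverPrime p →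
      ∀ σ : Γℚ, A.IsFrobeniusAt σ p →
        ((R σ : GL (Fin 2) ℂ) : Matrix (Fin 2) (Fin 2) ℂ).det = ((chiNegThree p : ℤ) : ℂ) ∧
        (p % 3 = 1 → ρ σ ^ 4 = 1 →
          ((R σ : GL (Fin 2) ℂ) : Matrix (Fin 2) (Fin 2) ℂ).trace = (quatTrace (ρ σ) : ℂ))) →
    ∃ ι : ℤ√(-2) →+* ℂ, ∀ σ : Γℚ, ((R σ : GL (Fin 2) ℂ) : Matrix (Fin 2) (Fin 2) ℂ).trace =
      ι ((Ψ (ρ σ) : GL (Fin 2) (ℤ√(-2))) : Matrix (Fin 2) (Fin 2) (ℤ√(-2))).trace

theorem chiC_natCast (n : ℕ) : chiC n = ((chiNegThree n : ℤ) : ℂ) := by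
  rw [chiNegThree_eq, chiC, Int.cast_natCast]

/-- The character modulo three. -/
def chiThree : DirichletCharacter ℂ 3 where
  toFun x := (chiZ x : ℂ)
  map_one' := by rw [chiZ_one, Int.cast_one]
  map_mul' x y := by rw [chiZ_mul, Int.cast_mul]
  map_nonunit' x hx := by
    have : Fact (Nat.Prime 3) := ⟨Nat.prime_three⟩
    have : x = 0 := by_contra fun h => hx (IsUnit.mk0 x h)
    subst this
    show ((chiZ 0 : ℤ) : ℂ) = 0
    rw [show chiZ 0 = 0 from rfl, Int.cast_zero]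

/-- The coefficients are homogeneous. -/
theorem qCoeff_w1_smul {N : ℕ} {f : ℍ → ℂ} (hf : IsW1 N f) (t : ℂ) (n : ℕ) :
    qCoeff (t • f) n = t * qCoeff f n := by
  rw [qCoeff, qCoeff, UpperHalfPlane.qExpansion_smul (hf.goodFn.analyticAt one_pos),
    PowerSeries.coeff_smul, smul_eq_mul]

/-- The constant coefficient of a cusp function vanishes. -/
theorem qCoeff_w1_zero {N : ℕ} [NeZero N] (h3 : 3 ∣ N) {f : ℍ → ℂ} (hf : IsW1 N f) :
    qCoeff f 0 = 0 :=
  CuspFormClass.qExpansion_coeff_zero (toCusp h3 hf) one_pos (by simp)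

/-- A form with the split eigenvalues gives a normalised one at a level with the same primes. -/
theorem exists_normalised {N : ℕ} [NeZero N] (h3 : 3 ∣ N) {f : ℍ → ℂ} (hf : IsW1 N f) (hne : f ≠ 0)
    {lam : GoodPrime N → ℂ} (heig : ∀ ℓ, heckeOne ℓ.1 f = lam ℓ • f) :
    ∃ (M : ℕ) (h : ℍ → ℂ), M ≠ 0 ∧ N ∣ M ∧ (∀ p : ℕ, p.Prime → p ∣ M → p ∣ N) ∧ IsW1 M h ∧
      qCoeff h 1 = 1 ∧
      (∀ ℓ : GoodPrime N, qCoeff h ℓ.1 = lam ℓ) ∧
      ∀ ℓ : GoodPrime N, ∀ n, qCoeff h (ℓ.1 * n) + chiC ℓ.1 * (if ℓ.1 ∣ n then qCoeff h (n / ℓ.1)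
        else 0) = lam ℓ * qCoeff h n := by
  classical
  have hrel : ∀ ℓ : GoodPrime N, ∀ n, qCoeff f (ℓ.1 * n) +
      chiC ℓ.1 * (if ℓ.1 ∣ n then qCoeff f (n / ℓ.1) else 0) = lam ℓ * qCoeff f n := fun ℓ n => by
    rw [← qCoeff_heckeOne ℓ.2.1 hf n, heig ℓ]
    exact qCoeff_w1_smul hf _ n
  have hex : ∃ d, qCoeff f d ≠ 0 := by
    by_contra h
    push Not at h
    exact hne (eq_of_qCoeff hf.goodFn (IsW1.zero_fun (N := N)).goodFn fun n => by
      rw [h n, qCoeff, UpperHalfPlane.qExpansion_zero, map_zero])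
  let d := Nat.find hex
  have hd : qCoeff f d ≠ 0 := Nat.find_spec hex
  have hd0 : d ≠ 0 := fun h => hd (h ▸ qCoeff_w1_zero h3 hf)
  have hdN : ∀ p : ℕ, p.Prime → p ∣ d → p ∣ N := by
    intro p hp hpd
    by_contra hpN
    obtain ⟨e, he⟩ := hpd
    have hlt : e < d := by
      rw [he]
      exact lt_mul_of_one_lt_left
        (Nat.pos_of_ne_zero fun h => hd0 (by rw [he, h, mul_zero])) hp.one_lt
    have he0 : qCoeff f e = 0 := not_not.1 (Nat.find_min hex hlt)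
    have h1 := hrel ⟨p, hp, hpN⟩ e
    rw [show qCoeff f e = 0 from he0, mul_zero, ← he] at h1
    have h2 : (if p ∣ e then qCoeff f (e / p) else 0) = 0 := by
      split_ifs with hpe
      · exact not_not.1 (Nat.find_min hex ((Nat.div_le_self e p).trans_lt hlt))
      · rfl
    rw [h2, mul_zero, add_zero] at h1
    exact hd h1
  have : NeZero d := ⟨hd0⟩
  have h3' : 3 ∣ N * d := h3.mul_right d
  obtain ⟨g, hg, hgq⟩ := exists_w1_dilate (d := d) (dvd_mul_left d N) h3'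
    (isW1_mono (dvd_mul_right N d) hf)
  have hq : ∀ n, qCoeff ((qCoeff f d)⁻¹ • g) n = (qCoeff f d)⁻¹ * qCoeff f (d * n) := fun n => by
    rw [← hgq]
    exact qCoeff_w1_smul hg _ n
  have hrel' : ∀ ℓ : GoodPrime N, ∀ n, qCoeff ((qCoeff f d)⁻¹ • g) (ℓ.1 * n) +
      chiC ℓ.1 * (if ℓ.1 ∣ n then qCoeff ((qCoeff f d)⁻¹ • g) (n / ℓ.1) else 0) =
        lam ℓ * qCoeff ((qCoeff f d)⁻¹ • g) n := by
    intro ℓ n
    have hco : Nat.Coprime ℓ.1 d :=
      (ℓ.2.1.coprime_iff_not_dvd).2 fun h => ℓ.2.2 (hdN _ ℓ.2.1 h)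
    have h1 := hrel ℓ (d * n)
    rw [show ℓ.1 * (d * n) = d * (ℓ.1 * n) by ring] at h1
    simp only [hco.dvd_mul_left] at h1
    simp only [hq]
    by_cases hn : ℓ.1 ∣ n
    · rw [if_pos hn, Nat.mul_div_assoc _ hn] at h1
      rw [if_pos hn]
      linear_combination (qCoeff f d)⁻¹ * h1
    · rw [if_neg hn] at h1 ⊢
      linear_combination (qCoeff f d)⁻¹ * h1
  have h1 : qCoeff ((qCoeff f d)⁻¹ • g) 1 = 1 := by rw [hq, mul_one, inv_mul_cancel₀ hd]
  refine ⟨N * d, _, mul_ne_zero (NeZero.ne N) hd0, dvd_mul_right N d,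
    fun p hp h => (hp.dvd_mul.1 h).elim id (hdN p hp), hg.smul _, h1, fun ℓ => ?_, hrel'⟩
  have := hrel' ℓ 1
  rwa [mul_one, if_neg ℓ.2.1.not_dvd_one, mul_zero, add_zero, h1, mul_one] at this

/-- A sequence with the relations of an eigensystem is determined by the values at the primes. -/
theorem eq_of_relation {R : Type*} [CommRing R] (e x y : ℕ → R) (h0 : x 0 = y 0) (h1 : x 1 = y 1)
    (hp : ∀ p : ℕ, p.Prime → x p = y p)
    (hx : ∀ ℓ : ℕ, ℓ.Prime → ∀ n, x (ℓ * n) + e ℓ * (if ℓ ∣ n then x (n / ℓ) else 0) = x ℓ * x n)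
    (hy : ∀ ℓ : ℕ, ℓ.Prime → ∀ n, y (ℓ * n) + e ℓ * (if ℓ ∣ n then y (n / ℓ) else 0) = y ℓ * y n)
    (n : ℕ) : x n = y n := by
  induction n using Nat.strong_induction_on with
  | _ n ih =>
    rcases eq_or_ne n 0 with rfl | hn0
    · exact h0
    rcases eq_or_ne n 1 with rfl | hn1
    · exact h1
    obtain ⟨m, hm⟩ := n.minFac_dvd
    have hpr : n.minFac.Prime := Nat.minFac_prime hn1
    have hlt : m < n := by
      conv_rhs => rw [hm]
      exact lt_mul_of_one_lt_left (Nat.pos_of_ne_zero fun h => hn0 (by rw [hm, h, mul_zero]))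
        hpr.one_lt
    have a := hx _ hpr m
    have b := hy _ hpr m
    rw [← hm, ih m hlt, hp _ hpr] at a
    rw [← hm] at b
    have e1 : (if n.minFac ∣ m then x (m / n.minFac) else 0) =
        (if n.minFac ∣ m then y (m / n.minFac) else 0) := by
      split_ifs
      · exact ih _ ((Nat.div_le_self _ _).trans_lt hlt)
      · rfl
    rw [e1] at a
    linear_combination a - b

/-- **The depletion at the level.**  From a normalised function of level `M` with multiplicative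
coefficients at the good primes, given there by a sequence `t` in `ℤ[√-2]`: a function of level
`M * M ^ 2` whose coefficients are an eigensystem, equal to `t` at the primes prime to `M`. -/
theorem exists_depleted_eigensystem {M : ℕ} [NeZero M] (h3M : 3 ∣ M) {h : ℍ → ℂ} (hh : IsW1 M h)
    (hh1 : qCoeff h 1 = 1)
    (hrel : ∀ ℓ : ℕ, ℓ.Prime → ¬ ℓ ∣ M → ∀ n, qCoeff h (ℓ * n) +
      chiC ℓ * (if ℓ ∣ n then qCoeff h (n / ℓ) else 0) = qCoeff h ℓ * qCoeff h n)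
    (ι : ℤ√(-2) →+* ℂ) (t : ℕ → ℤ√(-2))
    (ht : ∀ p : ℕ, p.Prime → ¬ p ∣ M → ι (t p) = qCoeff h p) :
    ∃ (g : ℍ → ℂ) (b : ℕ → ℤ√(-2)), IsW1 (M * M ^ 2) g ∧
      FormalHecke.IsEigensystem
        (fun ℓ => if ℓ ∣ M * M ^ 2 then 0 else ((chiNegThree ℓ : ℤ) : ℤ√(-2))) b ∧
      (∀ n, qCoeff g n = ι (b n)) ∧ ∀ p : ℕ, p.Prime → ¬ p ∣ M → b p = t p := by
  classical
  let c : ZMod M → ℂ := fun r => if IsUnit r then 1 else 0
  obtain ⟨g, hg, hgq⟩ := exists_w1_periodic h3M hh c fun u r => by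
    simp only [c]
    congr 1
    exact propext ⟨fun h => isUnit_of_mul_isUnit_left h,
      fun h => h.mul (u.isUnit.pow 2)⟩
  have : NeZero (M * M ^ 2) := ⟨mul_ne_zero (NeZero.ne M) (pow_ne_zero 2 (NeZero.ne M))⟩
  have hdvd : ∀ p : ℕ, p.Prime → (p ∣ M * M ^ 2 ↔ p ∣ M) := fun p hp =>
    ⟨fun h => (hp.dvd_mul.1 h).elim id hp.dvd_of_dvd_pow, fun h => h.mul_right _⟩
  have hc : ∀ n : ℕ, c n = if n.Coprime M then 1 else 0 := fun n => by
    simp only [c, ZMod.isUnit_iff_coprime]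
  let cb : ℕ → ℤ√(-2) := fun p => if p ∣ M then 0 else t p
  let e : ℕ → ℤ√(-2) := fun ℓ => if ℓ ∣ M * M ^ 2 then 0 else ((chiNegThree ℓ : ℤ) : ℤ√(-2))
  have hgp : ∀ p : ℕ, p.Prime → qCoeff g p = ι (cb p) := by
    intro p hp
    simp only [hgq, hc, hp.coprime_iff_not_dvd, cb]
    by_cases hpM : p ∣ M
    · rw [if_pos hpM, map_zero, if_neg (not_not.2 hpM), zero_mul]
    · rw [if_neg hpM, if_pos hpM, one_mul, ht p hp hpM]
  have hgrel : ∀ ℓ : ℕ, ℓ.Prime → ∀ n, qCoeff g (ℓ * n) +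
      ι (e ℓ) * (if ℓ ∣ n then qCoeff g (n / ℓ) else 0) = qCoeff g ℓ * qCoeff g n := by
    intro ℓ hℓ n
    simp only [hgq, hc, Nat.coprime_mul_iff_left, hℓ.coprime_iff_not_dvd, e, hdvd ℓ hℓ]
    by_cases hℓM : ℓ ∣ M
    · simp [hℓM]
    · have hn : ∀ k, n = ℓ * k → (n.Coprime M ↔ k.Coprime M) := fun k hk => by
        rw [hk, Nat.coprime_mul_iff_left, hℓ.coprime_iff_not_dvd]
        exact and_iff_right hℓM
      have h1 := hrel ℓ hℓ hℓM n
      rw [chiC_natCast] at h1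
      simp only [hℓM, not_false_eq_true, true_and, if_true, if_false, map_intCast, one_mul]
      by_cases hℓn : ℓ ∣ n
      · obtain ⟨k, rfl⟩ := hℓn
        rw [Nat.mul_div_cancel_left _ hℓ.pos] at h1 ⊢
        simp only [dvd_mul_right, if_true, hn k rfl] at h1 ⊢
        split_ifs with hk
        · linear_combination h1
        · ring
      · simp only [hℓn, if_false, mul_zero, add_zero] at h1 ⊢
        split_ifs with hk
        · linear_combination h1
        · ring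
  have hb := Depletion.recMul_isEigensystem cb e
  have hbp : ∀ p : ℕ, p.Prime → Depletion.recMul cb e p = cb p := fun p hp => by
    conv_lhs => rw [← pow_one p, Depletion.recMul_prime_pow cb e hp]
    rfl
  refine ⟨g, Depletion.recMul cb e, hg, hb, ?_, fun p hp hpM => by rw [hbp p hp]; exact if_neg hpM⟩
  refine eq_of_relation (fun ℓ => ι (e ℓ)) _ _ ?_ ?_ ?_ hgrel fun ℓ hℓ n => ?_
  · rw [Depletion.recMul_zero, map_zero, qCoeff_w1_zero (h3M.mul_right _) hg]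
  · rw [Depletion.recMul_one, map_one, hgq, hc, if_pos (Nat.coprime_one_left M), hh1, one_mul]
  · intro p hp; rw [hgp p hp, hbp p hp]
  · have := congrArg ι (hb.2 ℓ hℓ n)
    simpa [apply_ite ι] using this

/-- **The eigensystem of weight one** with the lifted traces away from the level. -/
theorem exists_realized_of_strongWeightOne {ρ : Γℚ →* GL (Fin 2) (ZMod 3)}
    {Ψ : GL (Fin 2) (ZMod 3) →* GL (Fin 2) (ℤ√(-2))} (hT : TraceStep ρ Ψ) {N₀ : ℕ} [NeZero N₀]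
    (h3 : 3 ∣ N₀) (hdata : StrongWeightOne ρ N₀) :
    ∃ (N : ℕ) (_ : NeZero N) (b : ℕ → ℤ√(-2)),
      FormalHecke.IsEigensystem
        (fun ℓ => if ℓ ∣ N then 0 else ((chiNegThree ℓ : ℤ) : ℤ√(-2))) b ∧
      CuspForm.IsWeightOneChiNegThreeRealized N b ∧
      ∀ p : ℕ, p.Prime → ¬ p ∣ 3 * N →
        ∀ A : ValuationSubring Qbar, A.LiesOverPrime p →
          ∀ σ : Γℚ, A.IsFrobeniusAt σ p →
            b p = ((Ψ (ρ σ) : GL (Fin 2) (ℤ√(-2))) : Matrix (Fin 2) (Fin 2) (ℤ√(-2))).trace := by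
  classical
  obtain ⟨g₀, hg₀, hslash, S, hS⟩ := hdata
  have hW1 : IsW1 N₀ (⇑g₀) := isW1_of_cusp hslash
  have hg₀' : (⇑g₀ : ℍ → ℂ) ≠ 0 := fun h => hg₀ (DFunLike.coe_injective h)
  choose! a ha using hS
  obtain ⟨f, lam, hf, hfne, heig, hlam⟩ := exists_w1_eigen_split h3 hW1 hg₀' S
    (fun p => (a p : ℂ)) fun p hp hpS hmod => (ha p hp hpS hmod).1
  obtain ⟨M, h, hM0, hNM, hprimes, hh, hh1, hhp, hhrel⟩ := exists_normalised h3 hf hfne heig
  have : NeZero M := ⟨hM0⟩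
  have h3M : 3 ∣ M := h3.trans hNM
  let ε : DirichletCharacter ℂ M := DirichletCharacter.changeLevel h3M chiThree
  have hε : ∀ p : ℕ, p.Prime → ¬ p ∣ M → ε (p : ZMod M) = chiC p := by
    intro p hp hpM
    have h' := chiThree.changeLevel_eq_cast_of_dvd' h3M (a := (p : ℤ))
      (Int.isCoprime_iff_nat_coprime.2 (by simpa using hp.coprime_iff_not_dvd.2 hpM))
    rw [Int.cast_natCast, Int.cast_natCast] at h'
    rw [h', chiC, Int.cast_natCast]
    rfl
  have hgood : ∀ {p : ℕ}, ¬ p ∣ M → ¬ p ∣ N₀ := fun hpM hd => hpM (hd.trans hNM)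
  have hrel : ∀ p : ℕ, p.Prime → ¬ p ∣ M → ∀ n, qCoeff h (p * n) +
      chiC p * (if p ∣ n then qCoeff h (n / p) else 0) = qCoeff h p * qCoeff h n :=
    fun p hp hpM n => by
      rw [hhp ⟨p, hp, hgood hpM⟩]
      exact hhrel ⟨p, hp, hgood hpM⟩ n
  obtain ⟨R, hRfin, -, hR⟩ := Fermat.Agent.S48.result M ε (toCusp h3M hh) hh1 fun p hp hpM n => by
    rw [hε p hp hpM]
    exact hrel p hp hpM n
  obtain ⟨ι, hι⟩ := hT R hRfin (S ∪ M.primeFactors) fun p hp hpS A hA σ hσ => by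
    rw [Finset.mem_union, not_or] at hpS
    have hpM : ¬ p ∣ M := fun hd => hpS.2 (Nat.mem_primeFactors.2 ⟨hp, hd, hM0⟩)
    obtain ⟨htr, hdet⟩ := ((hR p hp hpM A hA).2 σ hσ)
    refine ⟨by rw [hdet, hε p hp hpM, chiC_natCast], fun hmod hρ => ?_⟩
    rw [htr]
    show qCoeff h p = _
    rw [hhp ⟨p, hp, hgood hpM⟩, hlam ⟨p, hp, hgood hpM⟩ hmod hpS.1,
      ((ha p hp hpS.1 hmod).2 A hA σ hσ).2 hρ]
  have hinj : Function.Injective ι := by
    rw [← (Zsqrtd.lift (R := ℂ)).apply_symm_apply ι]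
    exact Zsqrtd.lift_injective _ fun n hn => by nlinarith
  choose Af σf hAf hσf using fun p : Nat.Primes => Gal.exists_liesOverPrime_isFrobeniusAt p.2
  let tr : Γℚ → ℤ√(-2) := fun σ =>
    ((Ψ (ρ σ) : GL (Fin 2) (ℤ√(-2))) : Matrix (Fin 2) (Fin 2) (ℤ√(-2))).trace
  have htr : ∀ p : ℕ, p.Prime → ¬ p ∣ M → ∀ A : ValuationSubring Qbar, A.LiesOverPrime p →
      ∀ σ : Γℚ, A.IsFrobeniusAt σ p → ι (tr σ) = qCoeff h p := fun p hp hpM A hA σ hσ =>
    (hι σ).symm.trans ((hR p hp hpM A hA).2 σ hσ).1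
  let t : ℕ → ℤ√(-2) := fun p => if hp : p.Prime then tr (σf ⟨p, hp⟩) else 0
  obtain ⟨g, b, hg, hb, hreal, hbp⟩ := exists_depleted_eigensystem h3M hh hh1 hrel ι t
    fun p hp hpM => by
      simp only [t, dif_pos hp]
      exact htr p hp hpM _ (hAf ⟨p, hp⟩) _ (hσf ⟨p, hp⟩)
  have : NeZero (M * M ^ 2) := ⟨mul_ne_zero hM0 (pow_ne_zero 2 hM0)⟩
  refine ⟨M * M ^ 2, inferInstance, b, hb, ⟨ι, toCusp (h3M.mul_right _) hg, fun n => hreal n⟩,
    fun p hp hpN A hA σ hσ => ?_⟩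
  have hpM : ¬ p ∣ M := fun hd => hpN ((hd.mul_right _).mul_left 3)
  refine hinj ?_
  rw [hbp p hp hpM, htr p hp hpM A hA σ hσ]
  simp only [t, dif_pos hp]
  exact htr p hp hpM _ (hAf ⟨p, hp⟩) _ (hσf ⟨p, hp⟩)

end Fermat.Agent.WeightOneLift
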